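import Fermat.Agent.S15.Mod.Loc.Front
import Fermat.Agent.EL.AddAll
import Fermat.Agent.EL.InjAll

/-!
# S15-MOD-LOC (Lii) in ALL residue characteristics `≠ p` (including `2`)

Same statements as `Zero.lean` / `Front.lean` without the hypothesis `2 ≠ 0` in the residue field,
using `EL.RedTo.nsmul_all` and `EL.eq_zero_of_redTo_zero_all`.  Also: the individual values
`2y + a₁x + a₃` at the multiples of `Q` are units (in the frozen presentation).
-/

set_option autoImplicit false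
set_option linter.unusedSectionVars false

namespace Fermat.Agent.S15.Mod.Loc

open WeierstrassCurve IsLocalRing Fermat.Agent.S05 Fermat.Agent.EL Fermat.Agent.S15.Lne Polynomial
open scoped WeierstrassCurve.Affine

section gen

variable {K : Type*} [Field K] [DecidableEq K] {A : ValuationSubring K}
  [DecidableEq (ResidueField A)] (V : WeierstrassCurve A)

theorem valuation_ps_eq_one_all [IsAlgClosed K] {p : ℕ}
    (hodd : Odd p) (hpκ : (p : ResidueField A) ≠ 0) {P : (gen V).toAffine.Point}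
    {Pb : (spe V).toAffine.Point} (hred : RedTo V P Pb) (hP : P ≠ 0) (hpP : p • P = 0) :
    A.valuation (ps P) = 1 := by
  have hPb0 : Pb ≠ 0 := by
    rintro rfl
    exact hP (eq_zero_of_redTo_zero_all V hpκ hred hpP)
  have hpPb : p • Pb = 0 := by
    have h1 := hred.nsmul_all p
    rw [hpP] at h1
    exact h1.unique RedTo.zero
  have h2Pb : Pb + Pb ≠ 0 := by
    intro h
    obtain ⟨m, hm⟩ := hodd
    apply hPb0
    have h3 : (2 * m) • Pb = 0 := by
      rw [mul_comm, mul_nsmul', two_nsmul, h, nsmul_zero]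
    rw [hm, add_nsmul, h3, zero_add, one_nsmul] at hpPb
    exact hpPb
  have hps : ps Pb ≠ 0 := fun h => h2Pb ((add_self_eq_zero_iff hPb0).mpr h)
  rcases Pb with _ | ⟨xb, yb, hb⟩
  · exact absurd rfl hPb0
  obtain ⟨a, b, h, rfl, rfl, rfl⟩ := hred.exists_of_some
  rw [ps_some] at hps ⊢
  have h4 : residue A (2 * b + V.a₁ * a + V.a₃) ≠ 0 := by
    rw [map_add, map_add, map_mul, map_mul, map_ofNat]
    exact hps
  rw [residue_ne_zero_iff_isUnit] at h4
  exact (ValuationSubring.valuation_eq_one_iff A _).mp h4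

theorem valuation_ps_nsmul_eq_one_all [IsAlgClosed K] {p : ℕ}
    (hp : p.Prime) (hp2 : p ≠ 2) (hpκ : (p : ResidueField A) ≠ 0) {Q : (gen V).toAffine.Point}
    {Qb : (spe V).toAffine.Point} (hred : RedTo V Q Qb) (hQ : addOrderOf Q = p) {k : ℕ}
    (hk : k ∈ Finset.Ico 1 p) : A.valuation (ps (k • Q)) = 1 :=
  valuation_ps_eq_one_all V (hp.odd_of_ne_two hp2) hpκ (hred.nsmul_all k)
    (nsmul_ne_zero hQ hk) (nsmul_nsmul_eq_zero hQ k)

theorem valuation_fx_eq_one_all [IsAlgClosed K] {p : ℕ}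
    (hp : p.Prime) (hp2 : p ≠ 2) (hpκ : (p : ResidueField A) ≠ 0) {Q : (gen V).toAffine.Point}
    {Qb : (spe V).toAffine.Point} (hred : RedTo V Q Qb) (hQ : addOrderOf Q = p) {k : ℕ}
    (hk : k ∈ Finset.Ico 1 p) : A.valuation (fx (gen V) (k • Q)) = 1 := by
  rw [fx_eq (nsmul_ne_zero hQ hk), map_pow,
    valuation_ps_nsmul_eq_one_all V hp hp2 hpκ hred hQ hk, one_pow]

theorem valuation_prodF_eq_one_all [IsAlgClosed K] {p : ℕ}
    (hp : p.Prime) (hp2 : p ≠ 2) (hpκ : (p : ResidueField A) ≠ 0) {Q : (gen V).toAffine.Point}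
    {Qb : (spe V).toAffine.Point} (hred : RedTo V Q Qb) (hQ : addOrderOf Q = p) :
    A.valuation (prodF (gen V) p Q) = 1 := by
  rw [prodF, map_prod]
  refine Finset.prod_eq_one fun k hk => ?_
  rw [map_pow, valuation_fx_eq_one_all V hp hp2 hpκ hred hQ hk, one_pow]

theorem GAM_not_mem_all [IsAlgClosed K] {p : ℕ}
    (hp : p.Prime) (hp2 : p ≠ 2) (hpκ : (p : ResidueField A) ≠ 0) {Q : (gen V).toAffine.Point}
    {Qb : (spe V).toAffine.Point} (hred : RedTo V Q Qb) (hQ : addOrderOf Q = p)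
    (hΔ0 : (gen V).Δ ≠ 0) (hΔ : (gen V).Δ ∈ A.nonunits) : GAM (gen V) p Q ∉ A :=
  GAM_not_mem_of_prodF hp.one_lt (valuation_natCast_eq_one hpκ) hΔ0 hΔ
    (valuation_prodF_eq_one_all V hp hp2 hpκ hred hQ)

/-- `prodF` only depends on the subgroup generated by `Q`. -/
theorem prodF_nsmul {F : Type*} [Field F] [DecidableEq F] {E : WeierstrassCurve F} {p : ℕ}
    (hp : p.Prime) {Q : E.toAffine.Point} (hQ : addOrderOf Q = p) {m : ℕ} (hm : ¬ p ∣ m) :
    prodF E p (m • Q) = prodF E p Q := by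
  rw [prodF, prodF]
  have hmaps : Set.MapsTo (fun k => (k * m) % p) (Finset.Ico 1 p : Set ℕ) (Finset.Ico 1 p) := by
    intro k hk
    have hk' := Finset.mem_Ico.1 (Finset.mem_coe.1 hk)
    refine Finset.mem_coe.2 (Finset.mem_Ico.2 ⟨?_, Nat.mod_lt _ hp.pos⟩)
    rw [Nat.one_le_iff_ne_zero]
    intro h0
    rcases (Nat.Prime.dvd_mul hp).1 (Nat.dvd_of_mod_eq_zero h0) with h | h
    · exact absurd (Nat.le_of_dvd (by omega) h) (by omega)
    · exact hm h
  have hinj : Set.InjOn (fun k => (k * m) % p) (Finset.Ico 1 p : Set ℕ) := by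
    intro k hk k' hk' h
    have h1 := Finset.mem_Ico.1 (Finset.mem_coe.1 hk)
    have h2 := Finset.mem_Ico.1 (Finset.mem_coe.1 hk')
    have h3 : k * m ≡ k' * m [MOD p] := h
    have hcop : Nat.gcd p m = 1 := (Nat.Prime.coprime_iff_not_dvd hp).2 hm
    have h4 : k ≡ k' [MOD p] := Nat.ModEq.cancel_right_of_coprime hcop h3
    have h5 := Nat.ModEq.eq_of_lt_of_lt h4 h1.2 h2.2
    exact h5
  refine Finset.prod_nbij (fun k => (k * m) % p) hmaps hinj
    (Finset.surjOn_of_injOn_of_card_le _ hmaps hinj le_rfl) fun k _ => ?_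
  have : ((k * m) % p) • Q = k • m • Q := by
    conv_lhs => rw [← hQ]
    rw [mod_addOrderOf_nsmul, mul_nsmul']
  rw [this]

end gen

local notation "Qbar" => AlgebraicClosure ℚ

section core

variable {W : WeierstrassCurve ℤ} {A : ValuationSubring Qbar} {ℓ p : ℕ}

theorem ZeroAll_hpκ (hp : p.Prime) (hℓ : ℓ.Prime) (hℓp : ℓ ≠ p) (hA : A.LiesOverPrime ℓ) :
    (p : ResidueField A) ≠ 0 :=
  natCast_residue_ne_zero hℓ hA (fun h => hℓp ((Nat.prime_dvd_prime_iff_eq hℓ hp).1 h))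

theorem GAM_not_mem_core_all (hΔ : W.Δ ≠ 0) (hp : p.Prime) (hp2 : p ≠ 2) (hℓ : ℓ.Prime)
    (hℓp : ℓ ≠ p) (hℓΔ : (ℓ : ℤ) ∣ W.Δ) (hA : A.LiesOverPrime ℓ)
    {EK : WeierstrassCurve Qbar} (hE : gen (modelA W A) = EK) (Q : EK.toAffine.Point)
    (hQ : addOrderOf Q = p) (h : InZero W A EK Q) : GAM EK p Q ∉ A := by
  subst hE
  classical
  obtain ⟨Qb, hQb⟩ := exists_redTo_of_inZero h
  have hΔe : (gen (modelA W A)).Δ = (W.Δ : Qbar) := by
    rw [gen_modelA, WeierstrassCurve.map_Δ, eq_intCast]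
  refine GAM_not_mem_all (modelA W A) hp hp2 (ZeroAll_hpκ hp hℓ hℓp hA) hQb hQ ?_ ?_
  · rw [hΔe]
    exact_mod_cast hΔ
  · rw [hΔe]
    exact intCast_mem_nonunits hA hℓΔ

/-- all `2y + a₁x + a₃` at the nonzero multiples of a point `Q` of odd prime order `p` in the zero
component at `A ∣ ℓ ≠ p` are units of `A` (any reduction type, any residue characteristic). -/
theorem valuation_ps_core_all (hp : p.Prime) (hp2 : p ≠ 2) (hℓ : ℓ.Prime)
    (hℓp : ℓ ≠ p) (hA : A.LiesOverPrime ℓ)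
    {EK : WeierstrassCurve Qbar} (hE : gen (modelA W A) = EK) (Q : EK.toAffine.Point)
    (hQ : addOrderOf Q = p) (h : InZero W A EK Q) {k : ℕ} (hk : k ∈ Finset.Ico 1 p) :
    A.valuation (ps (k • Q)) = 1 := by
  subst hE
  classical
  obtain ⟨Qb, hQb⟩ := exists_redTo_of_inZero h
  exact valuation_ps_nsmul_eq_one_all (modelA W A) hp hp2 (ZeroAll_hpκ hp hℓ hℓp hA) hQb hQ hk

end core

section front

variable {W : WeierstrassCurve ℤ} {p : ℕ} {Q : ((W.map (Int.castRingHom ℚ))⁄Qbar).Point}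

/-- **(Lii)** for every `ℓ ≠ p`, including `ℓ = 2`. -/
theorem gam_not_mem_all (hΔ : W.Δ ≠ 0) (hp : p.Prime) (hp2 : p ≠ 2) (hQ : addOrderOf Q = p)
    {ℓ : ℕ} (hℓ : ℓ.Prime) (hℓp : ℓ ≠ p) (hℓΔ : (ℓ : ℤ) ∣ W.Δ)
    (A : ValuationSubring Qbar) (hA : A.LiesOverPrime ℓ) (h : W.InZeroComponentAt A Q) :
    gam W p Q ∉ A :=
  GAM_not_mem_core_all hΔ hp hp2 hℓ hℓp hℓΔ hA (gen_modelA' W A) Q hQ h

/-- units: `ψ₂(kQ) = 2y + a₁x + a₃` is a unit at every `A ∣ ℓ ≠ p` at which `Q` is in the zero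
component. -/
theorem valuation_ps_eq_one_of_inZero (hp : p.Prime) (hp2 : p ≠ 2) (hQ : addOrderOf Q = p)
    {ℓ : ℕ} (hℓ : ℓ.Prime) (hℓp : ℓ ≠ p)
    (A : ValuationSubring Qbar) (hA : A.LiesOverPrime ℓ) (h : W.InZeroComponentAt A Q) {k : ℕ}
    (hk : k ∈ Finset.Ico 1 p) : A.valuation (ps (k • Q)) = 1 :=
  valuation_ps_core_all hp hp2 hℓ hℓp hA (gen_modelA' W A) Q hQ h hk

/-- `gam` only depends on the subgroup generated by `Q`. -/
theorem gam_nsmul (hp : p.Prime) (hQ : addOrderOf Q = p) {m : ℕ} (hm : ¬ p ∣ m) :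
    gam W p (m • Q) = gam W p Q := by
  have h := prodF_nsmul (E := EQ W) (Q := Q) hp hQ hm
  unfold gam GAM
  exact congrArg (fun t => (p : Qbar) ^ 12 * t / (EQ W).Δ ^ (p - 1)) h

/-- `gam` is `G_ℚ`-invariant as soon as the subgroup generated by `Q` is `G_ℚ`-stable. -/
theorem gam_fix_of_stable (hp : p.Prime) (hQ : addOrderOf Q = p) (σ : Qbar ≃ₐ[ℚ] Qbar) {m : ℕ}
    (hσ : σ • Q = m • Q) : σ (gam W p Q) = gam W p Q := by
  have hm : ¬ p ∣ m := by
    intro hd
    have h0 : m • Q = 0 := by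
      obtain ⟨c, rfl⟩ := hd
      rw [mul_comm, mul_nsmul', ← hQ, addOrderOf_nsmul_eq_zero, smul_zero]
    rw [h0] at hσ
    have hQ0 : Q = 0 := by
      have := congrArg (fun P => σ⁻¹ • P) hσ
      simp only [inv_smul_smul] at this
      rw [this]
      rfl
    rw [hQ0, addOrderOf_zero] at hQ
    exact hp.one_lt.ne hQ
  rw [← gam_smul, hσ, gam_nsmul hp hQ hm]

end front

end Fermat.Agent.S15.Mod.Loc
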