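import Fermat.Agent.S15.Mod.Loc.Defs

/-!
# S15-MOD-LOC: functoriality of `fx`, `prodF`, `GAM`, `GAM'` under field homomorphisms
-/

set_option autoImplicit false

namespace Fermat.Agent.S15.Mod.Loc

open WeierstrassCurve Fermat.Agent.S05 Fermat.Agent.EL Polynomial

section two

variable {F F' : Type*} [Field F] [Field F'] [DecidableEq F] [DecidableEq F']
  (f : F →+* F') {V : WeierstrassCurve F} {V' : WeierstrassCurve F'} (h : V.map f = V')

theorem xc_mapPt (P : V.toAffine.Point) : xc (mapPt f h P) = f (xc P) := by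
  rcases P with _ | ⟨x, y, hxy⟩
  · exact (map_zero f).symm
  · rfl

/-- `subst h`, `WeierstrassCurve.map_Ψ₂Sq`, `Polynomial.eval_map_apply` / `eval₂_hom`. -/
theorem fx_mapPt (P : V.toAffine.Point) : fx V' (mapPt f h P) = f (fx V P) := by
  subst h
  rw [fx, fx, xc_mapPt, WeierstrassCurve.map_Ψ₂Sq, Polynomial.eval_map,
    Polynomial.eval₂_at_apply]

theorem prodF_mapPt (p : ℕ) (Q : V.toAffine.Point) :
    prodF V' p (mapPt f h Q) = f (prodF V p Q) := by
  rw [prodF, prodF, map_prod]
  refine Finset.prod_congr rfl fun k _ => ?_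
  rw [map_pow, ← map_nsmul, fx_mapPt]

theorem GAM_mapPt (p : ℕ) (Q : V.toAffine.Point) : GAM V' p (mapPt f h Q) = f (GAM V p Q) := by
  rw [GAM, GAM, prodF_mapPt, map_div₀, map_mul, map_pow, map_pow, map_natCast]
  subst h
  rw [WeierstrassCurve.map_Δ]

theorem GAM'_mapPt (p : ℕ) (Q : V.toAffine.Point) :
    GAM' V' p (mapPt f h Q) = f (GAM' V p Q) := by
  rw [GAM', GAM', prodF_mapPt, map_div₀, map_mul, map_pow, map_pow, map_natCast]
  subst h
  rw [WeierstrassCurve.map_c₄]

theorem addOrderOf_mapPt (Q : V.toAffine.Point) : addOrderOf (mapPt f h Q) = addOrderOf Q :=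
  addOrderOf_injective (mapPt f h) (mapPt_injective f h) Q

end two

end Fermat.Agent.S15.Mod.Loc
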