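import Fermat.Agent.S15.Mod.Loc.Int

/-!
# S15-MOD-LOC (Li): `Q` of odd prime order `p`, NOT in the zero component at `A` (`p`, `c₄` units of
`A`; any residue characteristic): `GAM' = c₄^(3(p-1)) / (p¹² ∏ f(x(kQ))²) ∉ A`
-/

set_option autoImplicit false

namespace Fermat.Agent.S15.Mod.Loc

open WeierstrassCurve IsLocalRing Fermat.Agent.S05 Fermat.Agent.S13 Fermat.Agent.EL Polynomial

variable {K : Type*} [Field K] [DecidableEq K] {A : ValuationSubring K} (V : WeierstrassCurve A)

/-- The reduced point satisfies the reduced equation (`Affine.map_equation` for `A.subtype`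
(injective) downwards, `Affine.Equation.map`/`Affine.map_equation`-direction for `residue A`), so
"not nonsingular" (`Affine.nonsingular_iff'`) kills both partial derivatives, in particular
`2 ȳ + ā₁ x̄ + ā₃ = 0`: the element `2b + a₁a + a₃` of `A` is in the maximal ideal
(`residue_eq_zero_iff`, `ValuationSubring.coe_mem_nonunits_iff`). -/
theorem ps_mem_nonunits {a b : A} (h : (gen V).toAffine.Nonsingular (a : K) (b : K))
    (hs : ¬ (spe V).toAffine.Nonsingular (residue A a) (residue A b)) :
    ps (Affine.Point.some _ _ h) ∈ A.nonunits := by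
  have hA : V.toAffine.Equation a b :=
    (Affine.map_equation (W := V.toAffine) A.subtype_injective a b).1 h.1
  have hk : (spe V).toAffine.Equation (residue A a) (residue A b) :=
    Affine.Equation.map (residue A) hA
  rw [Affine.nonsingular_iff'] at hs
  have h1 : ¬ ((spe V).toAffine.a₁ * residue A b -
      (3 * residue A a ^ 2 + 2 * (spe V).toAffine.a₂ * residue A a + (spe V).toAffine.a₄) ≠ 0 ∨
      2 * residue A b + (spe V).toAffine.a₁ * residue A a + (spe V).toAffine.a₃ ≠ 0) :=
    fun h' => hs ⟨hk, h'⟩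
  rw [not_or, not_not, not_not] at h1
  have h2 : residue A (2 * b + V.a₁ * a + V.a₃) = 0 := by
    rw [map_add, map_add, map_mul, map_mul, map_ofNat]
    exact h1.2
  rw [residue_eq_zero_iff, ← ValuationSubring.coe_mem_nonunits_iff] at h2
  rw [ps_some]
  exact h2

/-- `fx_eq`, `ps_mem_nonunits`, `A.nonunits` is a subsemigroup (`pow`: `sq`, `mul_mem`). -/
theorem fx_mem_nonunits {a b : A} (h : (gen V).toAffine.Nonsingular (a : K) (b : K))
    (hs : ¬ (spe V).toAffine.Nonsingular (residue A a) (residue A b)) :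
    fx (gen V) (Affine.Point.some _ _ h) ∈ A.nonunits := by
  rw [fx_eq (Affine.Point.some_ne_zero _), sq]
  exact mul_mem (ps_mem_nonunits V h hs) (ps_mem_nonunits V h hs)

/-- valuation computation: `v(c₄) = v(p) = 1`, `0 < v(prodF) < 1` so `v(GAM') = v(prodF)⁻¹ > 1`
(`ValuationSubring.valuation_le_one_iff`, `ValuationSubring.valuation_lt_one_iff`/
`mem_nonunits_iff`). -/
theorem GAM'_not_mem_of_prodF {E : WeierstrassCurve K} {p : ℕ} {Q : E.toAffine.Point}
    (hpA : A.valuation (p : K) = 1) (hc4 : A.valuation E.c₄ = 1) (h0 : prodF E p Q ≠ 0)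
    (h1 : prodF E p Q ∈ A.nonunits) : GAM' E p Q ∉ A := by
  rw [← A.valuation_le_one_iff, not_le, GAM', map_div₀, map_mul, map_pow, map_pow, hpA, hc4,
    one_pow, one_pow, one_mul, one_div]
  rw [ValuationSubring.mem_nonunits_iff] at h1
  exact (one_lt_inv₀ (zero_lt_iff.mpr ((_root_.map_ne_zero _).mpr h0))).mpr h1

/-- **(Li), core.**  `prodF_mem_nonunits`, `fx_mem_nonunits`, `prodF_ne_zero`,
`GAM'_not_mem_of_prodF`. -/
theorem GAM'_not_mem [CharZero K] [IsAlgClosed K] {p : ℕ} (hp : p.Prime) (hp2 : p ≠ 2)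
    (hpA : A.valuation (p : K) = 1) (hc4 : A.valuation (gen V).c₄ = 1) {a b : A}
    (h : (gen V).toAffine.Nonsingular (a : K) (b : K))
    (hQ : addOrderOf (Affine.Point.some _ _ h) = p)
    (hs : ¬ (spe V).toAffine.Nonsingular (residue A a) (residue A b)) :
    GAM' (gen V) p (Affine.Point.some _ _ h) ∉ A :=
  GAM'_not_mem_of_prodF hpA hc4 (prodF_ne_zero hp hp2 hQ)
    (prodF_mem_nonunits V hp hp2 hpA hQ (fx_mem_nonunits V h hs))

end Fermat.Agent.S15.Mod.Loc
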