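import Fermat.Agent.S15.Mod.Loc.Basic
import Fermat.Agent.EL.Inj
import Fermat.Agent.EL.AuxPt

/-!
# S15-MOD-LOC (Lii): `Q` of odd prime order `p` with nonsingular reduction at `A` (residue
characteristic `≠ 2, p`), `Δ` a nonunit: all `f(x(kQ))` are units and `GAM ∉ A`
-/

set_option autoImplicit false

namespace Fermat.Agent.S15.Mod.Loc

open WeierstrassCurve IsLocalRing Fermat.Agent.S05 Fermat.Agent.EL Polynomial

variable {K : Type*} [Field K] [DecidableEq K] {A : ValuationSubring K}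
  [DecidableEq (ResidueField A)] (V : WeierstrassCurve A)

/-- a point `P ≠ 0` with `p • P = 0` (`p` odd, a unit) reducing to the nonsingular point `Pb`:
`Pb ≠ 0` (`EL.eq_zero_of_redTo_zero`), `p • Pb = 0` (`RedTo.nsmul (hasAux h2 V)`, `RedTo.unique`,
`RedTo.zero`), so `Pb + Pb ≠ 0` (`p` odd: `Pb = (p+1)/2 • (Pb + Pb) `...), i.e. `ps Pb ≠ 0`
(`S05.add_self_eq_zero_iff`).  `RedTo.exists_of_some`: `P = (a, b)` with `a, b : A` reducing to the
coordinates of `Pb`, so `ps P = ((2b + a₁a + a₃ : A) : K)` has residue `ps Pb ≠ 0`: it is a unit of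
`A` (`residue_ne_zero_iff_isUnit`, `ValuationSubring.valuation_eq_one_iff`). -/
theorem valuation_ps_eq_one [IsAlgClosed K] (h2 : (2 : ResidueField A) ≠ 0) {p : ℕ}
    (hodd : Odd p) (hpκ : (p : ResidueField A) ≠ 0) {P : (gen V).toAffine.Point}
    {Pb : (spe V).toAffine.Point} (hred : RedTo V P Pb) (hP : P ≠ 0) (hpP : p • P = 0) :
    A.valuation (ps P) = 1 := by
  have hPb0 : Pb ≠ 0 := by
    rintro rfl
    exact hP (eq_zero_of_redTo_zero h2 V hpκ hred hpP)
  have hpPb : p • Pb = 0 := by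
    have h1 := hred.nsmul (hasAux h2 V) p
    rw [hpP] at h1
    exact h1.unique RedTo.zero
  have h2Pb : Pb + Pb ≠ 0 := by
    intro h
    obtain ⟨m, hm⟩ := hodd
    apply hPb0
    have h3 : (2 * m) • Pb = 0 := by
      rw [mul_comm, mul_nsmul', two_nsmul, h, nsmul_zero]
    rw [hm, add_nsmul, h3, zero_add, one_nsmul] at hpPb
    exact hpPb
  have hps : ps Pb ≠ 0 := fun h => h2Pb ((add_self_eq_zero_iff hPb0).mpr h)
  rcases Pb with _ | ⟨xb, yb, hb⟩
  · exact absurd rfl hPb0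
  obtain ⟨a, b, h, rfl, rfl, rfl⟩ := hred.exists_of_some
  rw [ps_some] at hps ⊢
  have h4 : residue A (2 * b + V.a₁ * a + V.a₃) ≠ 0 := by
    rw [map_add, map_add, map_mul, map_mul, map_ofNat]
    exact hps
  rw [residue_ne_zero_iff_isUnit] at h4
  exact (ValuationSubring.valuation_eq_one_iff A _).mp h4

/-- `fx_eq`, `valuation_ps_eq_one` for `P = k • Q`, `Pb = k • Qb` (`RedTo.nsmul`). -/
theorem valuation_fx_eq_one [IsAlgClosed K] (h2 : (2 : ResidueField A) ≠ 0) {p : ℕ}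
    (hp : p.Prime) (hp2 : p ≠ 2) (hpκ : (p : ResidueField A) ≠ 0) {Q : (gen V).toAffine.Point}
    {Qb : (spe V).toAffine.Point} (hred : RedTo V Q Qb) (hQ : addOrderOf Q = p) {k : ℕ}
    (hk : k ∈ Finset.Ico 1 p) : A.valuation (fx (gen V) (k • Q)) = 1 := by
  rw [fx_eq (nsmul_ne_zero hQ hk), map_pow,
    valuation_ps_eq_one V h2 (hp.odd_of_ne_two hp2) hpκ (hred.nsmul (hasAux h2 V) k)
      (nsmul_ne_zero hQ hk) (nsmul_nsmul_eq_zero hQ k), one_pow]

theorem valuation_prodF_eq_one [IsAlgClosed K] (h2 : (2 : ResidueField A) ≠ 0) {p : ℕ}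
    (hp : p.Prime) (hp2 : p ≠ 2) (hpκ : (p : ResidueField A) ≠ 0) {Q : (gen V).toAffine.Point}
    {Qb : (spe V).toAffine.Point} (hred : RedTo V Q Qb) (hQ : addOrderOf Q = p) :
    A.valuation (prodF (gen V) p Q) = 1 := by
  rw [prodF, map_prod]
  refine Finset.prod_eq_one fun k hk => ?_
  rw [map_pow, valuation_fx_eq_one V h2 hp hp2 hpκ hred hQ hk, one_pow]

/-- valuation computation: `v(GAM) = v(Δ)^-(p-1) > 1` since `0 < v(Δ) < 1`, `p - 1 ≥ 1`. -/
theorem GAM_not_mem_of_prodF {E : WeierstrassCurve K} {p : ℕ} (hp1 : 1 < p)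
    {Q : E.toAffine.Point} (hpA : A.valuation (p : K) = 1) (hΔ0 : E.Δ ≠ 0)
    (hΔ : E.Δ ∈ A.nonunits) (h1 : A.valuation (prodF E p Q) = 1) : GAM E p Q ∉ A := by
  rw [← A.valuation_le_one_iff, not_le, GAM, map_div₀, map_mul, map_pow, map_pow, hpA, h1,
    one_pow, one_mul, one_div]
  rw [ValuationSubring.mem_nonunits_iff] at hΔ
  refine (one_lt_inv₀ (pow_pos (zero_lt_iff.mpr ((_root_.map_ne_zero _).mpr hΔ0)) _)).mpr ?_
  exact pow_lt_one₀ zero_le hΔ (by omega)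

/-- `(p : A)` has nonzero residue, so it is a unit. -/
theorem valuation_natCast_eq_one {n : ℕ} (hn : (n : ResidueField A) ≠ 0) :
    A.valuation (n : K) = 1 := by
  have h1 : residue A (n : A) ≠ 0 := by
    rw [map_natCast]
    exact hn
  rw [residue_ne_zero_iff_isUnit] at h1
  have h2 := (ValuationSubring.valuation_eq_one_iff A _).mp h1
  simpa using h2

/-- **(Lii), core.** -/
theorem GAM_not_mem [IsAlgClosed K] (h2 : (2 : ResidueField A) ≠ 0) {p : ℕ}
    (hp : p.Prime) (hp2 : p ≠ 2) (hpκ : (p : ResidueField A) ≠ 0) {Q : (gen V).toAffine.Point}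
    {Qb : (spe V).toAffine.Point} (hred : RedTo V Q Qb) (hQ : addOrderOf Q = p)
    (hΔ0 : (gen V).Δ ≠ 0) (hΔ : (gen V).Δ ∈ A.nonunits) : GAM (gen V) p Q ∉ A :=
  GAM_not_mem_of_prodF hp.one_lt (valuation_natCast_eq_one hpκ) hΔ0 hΔ
    (valuation_prodF_eq_one V h2 hp hp2 hpκ hred hQ)

end Fermat.Agent.S15.Mod.Loc
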