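import Fermat.Agent.S15.Mod.Loc.FrontA
import Fermat.Agent.S15.Mod.Loc.Map
import Fermat.Agent.S15.Mod.Loc.NonZero
import Fermat.Agent.S15.Mod.Loc.Zero
import Fermat.Agent.S15.Lne.Main

/-!
# S15-MOD-LOC: the statements (L0), (Li), (Lii) for `W : WeierstrassCurve ℤ` and a point `Q` of the
curve over `ℚ̄` in the presentation of the frozen statement S15
-/

set_option autoImplicit false
set_option linter.unusedSectionVars false

namespace Fermat.Agent.S15.Mod.Loc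

open WeierstrassCurve IsLocalRing Fermat.Agent.S05 Fermat.Agent.EL Fermat.Agent.S15.Lne
open scoped WeierstrassCurve.Affine

local notation "Qbar" => AlgebraicClosure ℚ

section core

variable {W : WeierstrassCurve ℤ} {A : ValuationSubring Qbar} {ℓ p : ℕ}

/-- `subst hE`; `classical`; `Lne.exists_redTo_of_inZero`; `Loc.GAM_not_mem` with
`h2`, `hpκ` from `EL.natCast_residue_ne_zero`; `(gen (modelA W A)).Δ = (W.Δ : Qbar)`
(`gen_modelA`, `map_Δ`), `intCast_mem_nonunits`. -/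
theorem GAM_not_mem_core (hΔ : W.Δ ≠ 0) (hp : p.Prime) (hp2 : p ≠ 2) (hℓ : ℓ.Prime)
    (hℓ2 : ℓ ≠ 2) (hℓp : ℓ ≠ p) (hℓΔ : (ℓ : ℤ) ∣ W.Δ) (hA : A.LiesOverPrime ℓ)
    {EK : WeierstrassCurve Qbar} (hE : gen (modelA W A) = EK) (Q : EK.toAffine.Point)
    (hQ : addOrderOf Q = p) (h : InZero W A EK Q) : GAM EK p Q ∉ A := by
  subst hE
  classical
  obtain ⟨Qb, hQb⟩ := exists_redTo_of_inZero h
  have h2 : (2 : ResidueField A) ≠ 0 := by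
    have := natCast_residue_ne_zero hℓ hA (n := 2) (fun h => hℓ2 ((Nat.prime_dvd_prime_iff_eq hℓ
      Nat.prime_two).1 h))
    exact_mod_cast this
  have hpκ : (p : ResidueField A) ≠ 0 :=
    natCast_residue_ne_zero hℓ hA (fun h => hℓp ((Nat.prime_dvd_prime_iff_eq hℓ hp).1 h))
  have hΔe : (gen (modelA W A)).Δ = (W.Δ : Qbar) := by
    rw [gen_modelA, WeierstrassCurve.map_Δ, eq_intCast]
  refine GAM_not_mem (modelA W A) h2 hp hp2 hpκ hQb hQ ?_ ?_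
  · rw [hΔe]
    exact_mod_cast hΔ
  · rw [hΔe]
    exact intCast_mem_nonunits hA hℓΔ

/-- `subst hE`; `Q ≠ 0` and `Q = (x, y)` with `x ∈ A` (both from `h`, unfolding `InZero`),
`y ∈ A` (`EL.y_mem_of_x_mem`), the reduction is singular (`h` again, `spe_modelA`);
`Loc.GAM'_not_mem` with `a = ⟨x, hx⟩`, `b = ⟨y, hy⟩`. -/
theorem GAM'_not_mem_core (hp : p.Prime) (hp2 : p ≠ 2) (hℓ : ℓ.Prime) (hℓp : ℓ ≠ p)
    (hℓc₄ : ¬ (ℓ : ℤ) ∣ W.c₄) (hA : A.LiesOverPrime ℓ)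
    {EK : WeierstrassCurve Qbar} (hE : gen (modelA W A) = EK) (Q : EK.toAffine.Point)
    (hQ : addOrderOf Q = p) (h : ¬ InZero W A EK Q) : GAM' EK p Q ∉ A := by
  subst hE
  rcases Q with _ | ⟨x, y, hxy⟩
  · exact absurd (Or.inl rfl) h
  · have hx : x ∈ A := by
      by_contra hx
      exact h (Or.inr ⟨x, y, hxy, rfl, Or.inl hx⟩)
    have hy : y ∈ A := y_mem_of_x_mem hxy.1 hx
    have hs : ¬ (spe (modelA W A)).toAffine.Nonsingular (residue A ⟨x, hx⟩)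
        (residue A ⟨y, hy⟩) := by
      intro hns
      rw [spe_modelA] at hns
      exact h (Or.inr ⟨x, y, hxy, rfl, Or.inr ⟨hx, hy, hns⟩⟩)
    have hpA : A.valuation (p : Qbar) = 1 := by
      have h1 : ¬ (ℓ : ℤ) ∣ (p : ℤ) := by
        intro hd
        exact hℓp ((Nat.prime_dvd_prime_iff_eq hℓ hp).1 (Int.natCast_dvd_natCast.1 hd))
      have := valuation_intCast_eq_one hℓ hA h1
      simpa using this
    have hc4 : A.valuation (gen (modelA W A)).c₄ = 1 := by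
      rw [gen_modelA, WeierstrassCurve.map_c₄, eq_intCast]
      exact valuation_intCast_eq_one hℓ hA hℓc₄
    exact GAM'_not_mem (modelA W A) hp hp2 hpA hc4 (a := ⟨x, hx⟩) (b := ⟨y, hy⟩) hxy hQ hs

end core

section front

variable {W : WeierstrassCurve ℤ} {p : ℕ} {Q : ((W.map (Int.castRingHom ℚ))⁄Qbar).Point}

theorem Front_map_algEquiv (W : WeierstrassCurve ℤ) (σ : Qbar ≃ₐ[ℚ] Qbar) :
    (EQ W).map (σ : Qbar →+* Qbar) = EQ W := by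
  unfold EQ
  rw [map_int_eq, map_int_eq]

theorem Front_smul_eq_mapPt (σ : Qbar ≃ₐ[ℚ] Qbar)
    (P : ((W.map (Int.castRingHom ℚ))⁄Qbar).Point) :
    σ • P = mapPt (σ : Qbar →+* Qbar) (Front_map_algEquiv W σ) P := by
  rcases P with _ | ⟨x, y, hxy⟩
  · rfl
  · rfl

theorem Front_gam_smul (σ : Qbar ≃ₐ[ℚ] Qbar) : gam W p (σ • Q) = σ (gam W p Q) := by
  rw [Front_smul_eq_mapPt]
  exact GAM_mapPt (σ : Qbar →+* Qbar) (Front_map_algEquiv W σ) p Q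

theorem gam_ne_zero (hΔ : W.Δ ≠ 0) (hp : p.Prime) (hp2 : p ≠ 2) (hQ : addOrderOf Q = p) :
    gam W p Q ≠ 0 := by
  refine GAM_ne_zero (E := EQ W) ?_ hp hp2 hQ
  rw [EQ_Δ]
  exact_mod_cast hΔ

/-- `σ • P = mapPt (σ : Qbar →+* Qbar) _ P` (cases on `P`, `rfl`, as `EL.smul_eq_mapPt`),
`GAM_mapPt`. -/
theorem gam_fix (σ : Qbar ≃ₐ[ℚ] Qbar) (hσ : σ • Q = Q) : σ (gam W p Q) = gam W p Q := by
  rw [← Front_gam_smul, hσ]

theorem gam_smul (σ : Qbar ≃ₐ[ℚ] Qbar) : gam W p (σ • Q) = σ (gam W p Q) :=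
  Front_gam_smul σ

theorem jW_fix (W : WeierstrassCurve ℤ) (σ : Qbar ≃ₐ[ℚ] Qbar) : σ (jW W) = jW W := by
  simp only [jW, map_div₀, map_pow, map_intCast]

/-- **(Lii)** -/
theorem gam_not_mem (hΔ : W.Δ ≠ 0) (hp : p.Prime) (hp2 : p ≠ 2) (hQ : addOrderOf Q = p)
    {ℓ : ℕ} (hℓ : ℓ.Prime) (hℓ2 : ℓ ≠ 2) (hℓp : ℓ ≠ p) (hℓΔ : (ℓ : ℤ) ∣ W.Δ)
    (A : ValuationSubring Qbar) (hA : A.LiesOverPrime ℓ) (h : W.InZeroComponentAt A Q) :
    gam W p Q ∉ A :=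
  GAM_not_mem_core hΔ hp hp2 hℓ hℓ2 hℓp hℓΔ hA (gen_modelA' W A) Q hQ h

/-- **(Li)**: `GAM'_not_mem_core`, `GAM'_eq`, `EQ_Δ`, `EQ_c₄`. -/
theorem div_gam_not_mem (hΔ : W.Δ ≠ 0) (hp : p.Prime) (hp2 : p ≠ 2) (hQ : addOrderOf Q = p)
    {ℓ : ℕ} (hℓ : ℓ.Prime) (hℓp : ℓ ≠ p) (hℓc₄ : ¬ (ℓ : ℤ) ∣ W.c₄)
    (A : ValuationSubring Qbar) (hA : A.LiesOverPrime ℓ) (h : ¬ W.InZeroComponentAt A Q) :
    jW W ^ (p - 1) / gam W p Q ∉ A := by
  have hΔ' : (EQ W).Δ ≠ 0 := by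
    rw [EQ_Δ]
    exact_mod_cast hΔ
  have h1 := GAM'_not_mem_core hp hp2 hℓ hℓp hℓc₄ hA (gen_modelA' W A) Q hQ h
  rw [GAM'_eq hΔ' hp hp2 hQ, EQ_Δ, EQ_c₄] at h1
  exact h1

end front

end Fermat.Agent.S15.Mod.Loc
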