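import Fermat.Agent.S15.Mod.Loc.ZeroAll

/-!
# S15-MOD-LOC: for a point `Q` of odd prime order `p` and `A ∣ ℓ ≠ p`:
`Q` is in the zero component at `A`  ⟺  `ψ₂(Q) = 2y + a₁x + a₃` is a unit of `A`.
-/

set_option autoImplicit false
set_option linter.unusedSectionVars false

namespace Fermat.Agent.S15.Mod.Loc

open WeierstrassCurve IsLocalRing Fermat.Agent.S05 Fermat.Agent.EL Fermat.Agent.S15.Lne Polynomial
open scoped WeierstrassCurve.Affine

local notation "Qbar" => AlgebraicClosure ℚ

section core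

variable {W : WeierstrassCurve ℤ} {A : ValuationSubring Qbar} {ℓ p : ℕ}

/-- a point with `ψ₂` a unit is in the zero component (no hypothesis on the order). -/
theorem inZero_of_valuation_ps {EK : WeierstrassCurve Qbar} (hE : gen (modelA W A) = EK)
    (Q : EK.toAffine.Point) (h : A.valuation (ps Q) = 1) : InZero W A EK Q := by
  subst hE
  rcases Q with _ | ⟨x, y, hxy⟩
  · exact Or.inl rfl
  · refine Or.inr ⟨x, y, hxy, rfl, ?_⟩
    by_cases hx : x ∈ A
    · right
      have hy : y ∈ A := y_mem_of_x_mem hxy.1 hx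
      refine ⟨hx, hy, ?_⟩
      by_contra hs
      rw [← spe_modelA W A] at hs
      have h1 := ps_mem_nonunits (modelA W A) (a := ⟨x, hx⟩) (b := ⟨y, hy⟩) hxy hs
      rw [ValuationSubring.mem_nonunits_iff] at h1
      exact absurd h h1.ne
    · exact Or.inl hx

end core

section front

variable {W : WeierstrassCurve ℤ} {p : ℕ} {Q : ((W.map (Int.castRingHom ℚ))⁄Qbar).Point}

theorem inZeroComponentAt_of_valuation_ps (A : ValuationSubring Qbar)
    (h : A.valuation (ps Q) = 1) : W.InZeroComponentAt A Q :=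
  inZero_of_valuation_ps (gen_modelA' W A) Q h

/-- **GOOD ⟺ zero component.** -/
theorem inZeroComponentAt_iff_valuation_ps (hp : p.Prime) (hp2 : p ≠ 2) (hQ : addOrderOf Q = p)
    {ℓ : ℕ} (hℓ : ℓ.Prime) (hℓp : ℓ ≠ p) (A : ValuationSubring Qbar) (hA : A.LiesOverPrime ℓ) :
    W.InZeroComponentAt A Q ↔ A.valuation (ps Q) = 1 := by
  refine ⟨fun h => ?_, inZeroComponentAt_of_valuation_ps A⟩
  have := valuation_ps_eq_one_of_inZero hp hp2 hQ hℓ hℓp A hA h
    (k := 1) (Finset.mem_Ico.2 ⟨le_rfl, hp.one_lt⟩)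
  rwa [one_smul] at this

end front

end Fermat.Agent.S15.Mod.Loc
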