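import Fermat.Agent.S15.Mod.Loc.Defs

/-!
# S15-MOD-LOC, basic facts on `fx`, `prodF`, `GAM`, `GAM'`: non-vanishing
-/

set_option autoImplicit false

namespace Fermat.Agent.S15.Mod.Loc

open WeierstrassCurve Fermat.Agent.S05 Fermat.Agent.EL Polynomial

section one

variable {K : Type*} [Field K] [DecidableEq K] {E : WeierstrassCurve K}

/-- unfold `Ψ₂Sq`, `S05.ps_sq`. -/
theorem fx_eq {P : E.toAffine.Point} (hP : P ≠ 0) : fx E P = ps P ^ 2 := by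
  rw [ps_sq hP, fx, WeierstrassCurve.Ψ₂Sq]
  simp only [eval_add, eval_mul, eval_C, eval_pow, eval_X]

/-- `fx_eq`, `S05.add_self_eq_zero_iff`. -/
theorem fx_ne_zero {P : E.toAffine.Point} (hP : P ≠ 0) (h2 : P + P ≠ 0) : fx E P ≠ 0 := by
  rw [fx_eq hP]
  exact pow_ne_zero 2 fun h => h2 ((add_self_eq_zero_iff hP).2 h)

theorem nsmul_ne_zero {p : ℕ} {Q : E.toAffine.Point} (hQ : addOrderOf Q = p) {k : ℕ}
    (hk : k ∈ Finset.Ico 1 p) : k • Q ≠ 0 := by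
  obtain ⟨h1, h2⟩ := Finset.mem_Ico.1 hk
  intro h
  have := addOrderOf_dvd_of_nsmul_eq_zero h
  rw [hQ] at this
  exact absurd (Nat.le_of_dvd (by omega) this) (by omega)

/-- `2k • Q = 0` gives `p ∣ 2k`, so `p ∣ k` (`p` odd prime), impossible for `0 < k < p`. -/
theorem nsmul_add_ne_zero {p : ℕ} (hp : p.Prime) (hp2 : p ≠ 2) {Q : E.toAffine.Point}
    (hQ : addOrderOf Q = p) {k : ℕ} (hk : k ∈ Finset.Ico 1 p) : k • Q + k • Q ≠ 0 := by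
  obtain ⟨h1, h2⟩ := Finset.mem_Ico.1 hk
  intro h
  rw [← add_nsmul] at h
  have h3 := addOrderOf_dvd_of_nsmul_eq_zero h
  rw [hQ, ← two_mul] at h3
  rcases (Nat.Prime.dvd_mul hp).1 h3 with h4 | h4
  · exact hp2 ((Nat.prime_dvd_prime_iff_eq hp Nat.prime_two).1 h4)
  · exact absurd (Nat.le_of_dvd (by omega) h4) (by omega)

theorem nsmul_nsmul_eq_zero {p : ℕ} {Q : E.toAffine.Point} (hQ : addOrderOf Q = p) (k : ℕ) :
    p • (k • Q) = 0 := by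
  rw [smul_comm, ← hQ, addOrderOf_nsmul_eq_zero, smul_zero]

theorem fx_nsmul_ne_zero {p : ℕ} (hp : p.Prime) (hp2 : p ≠ 2) {Q : E.toAffine.Point}
    (hQ : addOrderOf Q = p) {k : ℕ} (hk : k ∈ Finset.Ico 1 p) : fx E (k • Q) ≠ 0 :=
  fx_ne_zero (nsmul_ne_zero hQ hk) (nsmul_add_ne_zero hp hp2 hQ hk)

theorem prodF_ne_zero {p : ℕ} (hp : p.Prime) (hp2 : p ≠ 2) {Q : E.toAffine.Point}
    (hQ : addOrderOf Q = p) : prodF E p Q ≠ 0 := by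
  rw [prodF, Finset.prod_ne_zero_iff]
  exact fun k hk => pow_ne_zero 2 (fx_nsmul_ne_zero hp hp2 hQ hk)

theorem GAM_ne_zero [CharZero K] (hΔ : E.Δ ≠ 0) {p : ℕ} (hp : p.Prime) (hp2 : p ≠ 2)
    {Q : E.toAffine.Point} (hQ : addOrderOf Q = p) : GAM E p Q ≠ 0 := by
  rw [GAM]
  exact div_ne_zero (mul_ne_zero (pow_ne_zero _ (Nat.cast_ne_zero.2 hp.ne_zero))
    (prodF_ne_zero hp hp2 hQ)) (pow_ne_zero _ hΔ)

/-- `GAM' = j^(p-1) / GAM`. -/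
theorem GAM'_eq [CharZero K] (hΔ : E.Δ ≠ 0) {p : ℕ} (hp : p.Prime) (hp2 : p ≠ 2)
    {Q : E.toAffine.Point} (hQ : addOrderOf Q = p) :
    GAM' E p Q = (E.c₄ ^ 3 / E.Δ) ^ (p - 1) / GAM E p Q := by
  have h1 : (p : K) ≠ 0 := Nat.cast_ne_zero.2 hp.ne_zero
  have h2 := prodF_ne_zero hp hp2 hQ
  have h3 : E.Δ ^ (p - 1) ≠ 0 := pow_ne_zero _ hΔ
  rw [GAM', GAM, div_pow, ← pow_mul]
  field_simp

end one

end Fermat.Agent.S15.Mod.Loc
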