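import Fermat.Agent.S05.Formulas
import Fermat.Agent.EL.MapPt

/-!
# S15-MOD-LOC, definitions: the algebraic value `GAM(E, Q)` of the modular unit `Δ(τ)/Δ(pτ)`

`E` a Weierstrass curve over a field `K`, `Q` a point (of odd prime order `p`), `f = Ψ₂Sq`:
`GAM = p¹² ∏_{0<k<p} f(x(kQ))² / Δ^(p-1)`,  `GAM' = c₄^(3(p-1)) / (p¹² ∏ f(x(kQ))²) = j^(p-1)/GAM`.
-/

set_option autoImplicit false

namespace Fermat.Agent.S15.Mod.Loc

open WeierstrassCurve Fermat.Agent.S05 Polynomial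

variable {K : Type*} [Field K] [DecidableEq K]

/-- `f(x(P))` with `f = 4x³ + b₂x² + 2b₄x + b₆`. -/
noncomputable def fx (E : WeierstrassCurve K) (P : E.toAffine.Point) : K := E.Ψ₂Sq.eval (xc P)

/-- `∏_{0<k<p} f(x(kQ))²`. -/
noncomputable def prodF (E : WeierstrassCurve K) (p : ℕ) (Q : E.toAffine.Point) : K :=
  ∏ k ∈ Finset.Ico 1 p, fx E (k • Q) ^ 2

/-- the value of `g = Δ(τ)/Δ(pτ)` at `(E, ⟨Q⟩)`. -/
noncomputable def GAM (E : WeierstrassCurve K) (p : ℕ) (Q : E.toAffine.Point) : K :=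
  (p : K) ^ 12 * prodF E p Q / E.Δ ^ (p - 1)

/-- the value of `j^(p-1)/g` at `(E, ⟨Q⟩)`. -/
noncomputable def GAM' (E : WeierstrassCurve K) (p : ℕ) (Q : E.toAffine.Point) : K :=
  E.c₄ ^ (3 * (p - 1)) / ((p : K) ^ 12 * prodF E p Q)

end Fermat.Agent.S15.Mod.Loc
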