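import Fermat.Agent.S15.Mod.Loc.Front
import Fermat.Agent.S15.Mod.D.Place

/-!
# S15-MOD-LOC, export: bridge to MOD-D (`D.gam`, `D.exists_place`)
-/

set_option autoImplicit false

namespace Fermat.Agent.S15.Mod.Loc

open WeierstrassCurve AlgebraicCurve ModularCurve Fermat.Agent.GR
open scoped WeierstrassCurve.Affine

local notation "Qbar" => AlgebraicClosure ℚ

variable {W : WeierstrassCurve ℤ} {p : ℕ} {Q : ((W.map (Int.castRingHom ℚ))⁄Qbar).Point}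

theorem gam_eq_D : gam W p Q = D.gam (EQ W).toAffine p Q := rfl

theorem jW_eq (W : WeierstrassCurve ℤ) : jW W = (EQ W).c₄ ^ 3 / (EQ W).Δ := by
  rw [EQ_Δ, EQ_c₄, jW]

/-- the place `x = (W, ⟨Q⟩)` of the function field of `X₀(N)`, `p ∣ N`. -/
theorem exists_place (hΔ : W.Δ ≠ 0) (h2c₄ : ¬ (2 : ℤ) ∣ W.c₄) (hp : p.Prime)
    (hp2 : p ≠ 2) (hQ : addOrderOf Q = p) [NeZero p] (N : ℕ) [NeZero N] (hpN : p ∣ N) :
    ∃ x : Place Qbar (FF Qbar N),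
      0 ≤ x.ord (GR.A.jF Qbar N) ∧ S17.FF.val x (GR.A.jF Qbar N) = jW W ∧
      x.ord (Cusp.gF p N hpN) = 0 ∧ S17.FF.val x (Cusp.gF p N hpN) = gam W p Q := by
  rw [jW_eq, gam_eq_D]
  exact D.exists_place (EQ W) (by rw [EQ_Δ]; exact_mod_cast hΔ)
    (by rw [EQ_c₄]; exact_mod_cast c₄_ne_zero W h2c₄)
    (by rw [EQ_c₆]; exact_mod_cast c₆_ne_zero W h2c₄) hp hp2 Q hQ N hpN

end Fermat.Agent.S15.Mod.Loc
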