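import Fermat.Agent.S15.Mod.Loc.Defs
import Fermat.Agent.EL.X23

/-!
# S15-MOD-LOC: `gam W p Q`, `jW W` for `W : WeierstrassCurve ℤ` and a point `Q` of the curve over `ℚ̄`
in the presentation of the frozen statement S15; invariants; valuations of integers
-/

set_option autoImplicit false
set_option linter.unusedSectionVars false

namespace Fermat.Agent.S15.Mod.Loc

open WeierstrassCurve IsLocalRing Fermat.Agent.S05 Fermat.Agent.EL
open scoped WeierstrassCurve.Affine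

local notation "Qbar" => AlgebraicClosure ℚ

/-- the curve over `ℚ̄`, in the frozen presentation. -/
noncomputable abbrev EQ (W : WeierstrassCurve ℤ) : WeierstrassCurve Qbar :=
  (W.map (Int.castRingHom ℚ)).map (algebraMap ℚ Qbar)

/-- `GAM(W, Q)`: the value of `g = Δ(τ)/Δ(pτ)` at the point `(W, ⟨Q⟩)` of `X₀(p)`. -/
noncomputable def gam (W : WeierstrassCurve ℤ) (p : ℕ)
    (Q : ((W.map (Int.castRingHom ℚ))⁄Qbar).Point) : Qbar := GAM (EQ W) p Q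

/-- `j(W)`. -/
noncomputable def jW (W : WeierstrassCurve ℤ) : Qbar := (W.c₄ : Qbar) ^ 3 / (W.Δ : Qbar)

section inv

variable (W : WeierstrassCurve ℤ)

theorem EQ_map {S : Type*} [CommRing S] (f : Qbar →+* S) :
    (EQ W).map f = W.map (Int.castRingHom S) := by
  rw [EQ, map_int_eq, map_int_eq]

theorem FrontA_EQ_eq : EQ W = W.map (Int.castRingHom Qbar) := map_int_eq W _

/-- `EL.map_int_eq`, `WeierstrassCurve.map_Δ`, `eq_intCast`. -/
theorem EQ_Δ : (EQ W).Δ = (W.Δ : Qbar) := by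
  rw [FrontA_EQ_eq, WeierstrassCurve.map_Δ, eq_intCast]

theorem EQ_c₄ : (EQ W).c₄ = (W.c₄ : Qbar) := by
  rw [FrontA_EQ_eq, WeierstrassCurve.map_c₄, eq_intCast]

theorem EQ_c₆ : (EQ W).c₆ = (W.c₆ : Qbar) := by
  rw [FrontA_EQ_eq, WeierstrassCurve.map_c₆, eq_intCast]

/-- `1728 Δ = c₄³ - c₆²` (`c_relation`): `c₆ = 0` would give `2 ∣ c₄³`. -/
theorem c₆_ne_zero (h2c₄ : ¬ (2 : ℤ) ∣ W.c₄) : W.c₆ ≠ 0 := by
  intro h
  have h1 := W.c_relation
  rw [h] at h1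
  have h2 : (2 : ℤ) ∣ W.c₄ ^ 3 := ⟨864 * W.Δ, by linear_combination -h1⟩
  exact h2c₄ (Int.prime_two.dvd_of_dvd_pow h2)

theorem c₄_ne_zero (h2c₄ : ¬ (2 : ℤ) ∣ W.c₄) : W.c₄ ≠ 0 := by
  rintro h
  exact h2c₄ (h ▸ dvd_zero _)

end inv

section val

variable {W : WeierstrassCurve ℤ} {A : ValuationSubring Qbar} {ℓ : ℕ}

/-- `EL.isUnit_intCast`, `ValuationSubring.valuation_eq_one_iff`. -/
theorem valuation_intCast_eq_one (hℓ : ℓ.Prime) (hA : A.LiesOverPrime ℓ) {m : ℤ}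
    (hm : ¬ (ℓ : ℤ) ∣ m) : A.valuation (m : Qbar) = 1 := by
  have h := (A.valuation_eq_one_iff (m : A)).1 (isUnit_intCast hℓ hA hm)
  simpa using h

/-- `m = ℓ * m'`, `(ℓ : Qbar) ∈ A.nonunits` (`hA`), `(m' : Qbar) ∈ A`. -/
theorem intCast_mem_nonunits (hA : A.LiesOverPrime ℓ) {m : ℤ} (hm : (ℓ : ℤ) ∣ m) :
    (m : Qbar) ∈ A.nonunits := by
  obtain ⟨m', rfl⟩ := hm
  have h1 : A.valuation (ℓ : Qbar) < 1 := (ValuationSubring.mem_nonunits_iff A).1 hA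
  have h2 : A.valuation (m' : Qbar) ≤ 1 := (A.valuation_le_one_iff _).2 (intCast_mem A m')
  rw [ValuationSubring.mem_nonunits_iff]
  push_cast
  rw [map_mul]
  exact mul_lt_one_of_lt_of_le h1 h2

/-- `v(c₄) = 1`, `0 < v(Δ) < 1`. -/
theorem jW_not_mem (hΔ : W.Δ ≠ 0) (hℓ : ℓ.Prime) (hℓΔ : (ℓ : ℤ) ∣ W.Δ)
    (hℓc₄ : ¬ (ℓ : ℤ) ∣ W.c₄) (hA : A.LiesOverPrime ℓ) : jW W ∉ A := by
  have h1 : A.valuation (W.Δ : Qbar) < 1 :=
    (ValuationSubring.mem_nonunits_iff A).1 (intCast_mem_nonunits hA hℓΔ)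
  have h0 : A.valuation (W.Δ : Qbar) ≠ 0 := by
    rw [Valuation.ne_zero_iff]
    exact_mod_cast hΔ
  rw [← A.valuation_le_one_iff, jW, map_div₀, map_pow, valuation_intCast_eq_one hℓ hA hℓc₄,
    one_pow, not_le, one_div]
  exact (one_lt_inv₀ (zero_lt_iff.2 h0)).2 h1

end val

end Fermat.Agent.S15.Mod.Loc
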