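import Fermat.Agent.S15.Mod.Loc.TransB
import Fermat.Agent.S15.Mod.Loc.Basic
import Fermat.Agent.EL.Kernel

/-!
# S15-MOD-LOC: integrality of `x(Q)`, `y(Q)`, `f(x(Q))` for a point `Q` of odd prime order `p`,
at a valuation ring `A` in which `p` is a unit (ANY residue characteristic `≠ p`, including `2, 3`)
-/

set_option autoImplicit false
set_option linter.unusedSectionVars false

namespace Fermat.Agent.S15.Mod.Loc

open WeierstrassCurve IsLocalRing Fermat.Agent.S05 Fermat.Agent.S13 Fermat.Agent.EL Polynomial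

variable {K : Type*} [Field K] [DecidableEq K] {A : ValuationSubring K} (V : WeierstrassCurve A)

/-- `(gen V).preΨ n = (V.preΨ n).map A.subtype` (`WeierstrassCurve.map_preΨ`), `coeff_map`. -/
theorem coeff_preΨ_gen_mem (n : ℤ) (i : ℕ) : ((gen V).preΨ n).coeff i ∈ A := by
  rw [WeierstrassCurve.map_preΨ, coeff_map]
  exact ((V.preΨ n).coeff i).2

/-- `(gen V).Ψ₂Sq = V.Ψ₂Sq.map A.subtype`, `eval_map`, `eval₂_at_apply`/`hom_eval₂`. -/
theorem eval_Ψ₂Sq_gen_mem {x : K} (hx : x ∈ A) : (gen V).Ψ₂Sq.eval x ∈ A := by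
  have h := Polynomial.eval₂_at_apply (p := V.Ψ₂Sq) A.subtype (⟨x, hx⟩ : A)
  rw [WeierstrassCurve.map_Ψ₂Sq, eval_map]
  have e : A.subtype (⟨x, hx⟩ : A) = x := rfl
  rw [e] at h
  rw [h]
  exact (V.Ψ₂Sq.eval (⟨x, hx⟩ : A)).2

/-- `S13.root_mem_of_leadingCoeff_unit`, `coeff_preΨ_gen_mem`, `S13.leadingCoeff_preΨ_prime`,
`eval_preΨ_of_torsion_gen`; `xc 0 = 0 ∈ A`. -/
theorem xc_mem [CharZero K] [IsAlgClosed K] {p : ℕ} (hp : p.Prime) (hp2 : p ≠ 2)
    (hpA : A.valuation (p : K) = 1) {Q : (gen V).toAffine.Point} (hpQ : p • Q = 0) :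
    xc Q ∈ A := by
  by_cases hQ : Q = 0
  · subst hQ
    exact A.zero_mem
  · refine root_mem_of_leadingCoeff_unit A (g := (gen V).preΨ p) (coeff_preΨ_gen_mem V p) ?_
      (eval_preΨ_of_torsion_gen (gen V) hp hp2 hQ hpQ)
    rw [leadingCoeff_preΨ_prime (gen V).toAffine hp hp2]
    exact hpA

theorem fx_mem [CharZero K] [IsAlgClosed K] {p : ℕ} (hp : p.Prime) (hp2 : p ≠ 2)
    (hpA : A.valuation (p : K) = 1) {Q : (gen V).toAffine.Point} (hpQ : p • Q = 0) :
    fx (gen V) Q ∈ A :=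
  eval_Ψ₂Sq_gen_mem V (xc_mem V hp hp2 hpA hpQ)

/-- all factors lie in `A` (`fx_mem`, `nsmul_nsmul_eq_zero`), `Subring.prod_mem`/`pow_mem`. -/
theorem prodF_mem [CharZero K] [IsAlgClosed K] {p : ℕ} (hp : p.Prime) (hp2 : p ≠ 2)
    (hpA : A.valuation (p : K) = 1) {Q : (gen V).toAffine.Point} (hQ : addOrderOf Q = p) :
    prodF (gen V) p Q ∈ A := by
  rw [prodF]
  exact prod_mem fun k _ => pow_mem (fx_mem V hp hp2 hpA (nsmul_nsmul_eq_zero hQ k)) 2

/-- split off the factor `k = 1` (`Finset.prod_eq_mul_prod_diff_singleton` or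
`Finset.prod_Ico_succ_top`/`Finset.prod_eq_prod_Ico_succ_bot`, `1 < p`); the valuation of the
product is `≤` the valuation of that factor, `< 1`. -/
theorem prodF_mem_nonunits [CharZero K] [IsAlgClosed K] {p : ℕ} (hp : p.Prime) (hp2 : p ≠ 2)
    (hpA : A.valuation (p : K) = 1) {Q : (gen V).toAffine.Point} (hQ : addOrderOf Q = p)
    (h1 : fx (gen V) Q ∈ A.nonunits) : prodF (gen V) p Q ∈ A.nonunits := by
  rw [prodF, Finset.prod_eq_prod_Ico_succ_bot hp.one_lt, one_smul,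
    ValuationSubring.mem_nonunits_iff, map_mul, map_pow]
  have h2 : A.valuation (fx (gen V) Q) < 1 := (ValuationSubring.mem_nonunits_iff A).1 h1
  have h3 : A.valuation (∏ k ∈ Finset.Ico (1 + 1) p, fx (gen V) (k • Q) ^ 2) ≤ 1 :=
    (A.valuation_le_one_iff _).2
      (prod_mem fun k _ => pow_mem (fx_mem V hp hp2 hpA (nsmul_nsmul_eq_zero hQ k)) 2)
  exact mul_lt_one_of_lt_of_le (pow_lt_one₀ zero_le h2 two_ne_zero) h3

end Fermat.Agent.S15.Mod.Loc
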