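import Mathlib

/-!
# S15-MOD-LOC: the division polynomials `preΨ n` are covariant under the translation `x ↦ x + e`
-/

set_option autoImplicit false

namespace Fermat.Agent.S15.Mod.Loc

open WeierstrassCurve Polynomial

variable {R : Type*} [CommRing R] (W : WeierstrassCurve R) (e : R)

/-- the translation `x = x' + e`. -/
def trVC : VariableChange R := ⟨1, e, 0, 0⟩

/-- `variableChange_b₂` etc. (simp lemmas of Mathlib), `Units.val_one`, `inv_one`. -/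
theorem trVC_b :
    (trVC e • W).b₂ = W.b₂ + 12 * e ∧
    (trVC e • W).b₄ = W.b₄ + e * W.b₂ + 6 * e ^ 2 ∧
    (trVC e • W).b₆ = W.b₆ + 2 * e * W.b₄ + e ^ 2 * W.b₂ + 4 * e ^ 3 ∧
    (trVC e • W).b₈ = W.b₈ + 3 * e * W.b₆ + 3 * e ^ 2 * W.b₄ + e ^ 3 * W.b₂ + 3 * e ^ 4 := by
  refine ⟨?_, ?_, ?_, ?_⟩
  · rw [variableChange_b₂]; simp [trVC]
  · rw [variableChange_b₄]; simp [trVC]
  · rw [variableChange_b₆]; simp [trVC]
  · rw [variableChange_b₈]; simp [trVC]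

/-- unfold `Ψ₂Sq`, `trVC_b`, `simp [add_comp, mul_comp, ...]`, `C`-ring identity
(`simp only [map_add, map_mul, map_pow, map_ofNat]; ring`). -/
theorem Ψ₂Sq_trVC : (trVC e • W).Ψ₂Sq = W.Ψ₂Sq.comp (X + C e) := by
  obtain ⟨h2, h4, h6, h8⟩ := trVC_b W e
  unfold Ψ₂Sq
  rw [h2, h4, h6]
  simp only [add_comp, mul_comp, pow_comp, X_comp, C_comp, map_add, map_mul, map_pow, map_ofNat,
    ofNat_comp]
  ring

theorem Ψ₃_trVC : (trVC e • W).Ψ₃ = W.Ψ₃.comp (X + C e) := by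
  obtain ⟨h2, h4, h6, h8⟩ := trVC_b W e
  unfold Ψ₃
  rw [h2, h4, h6, h8]
  simp only [add_comp, mul_comp, pow_comp, X_comp, C_comp, map_add, map_mul, map_pow, map_ofNat,
    ofNat_comp]
  ring

theorem preΨ₄_trVC : (trVC e • W).preΨ₄ = W.preΨ₄.comp (X + C e) := by
  obtain ⟨h2, h4, h6, h8⟩ := trVC_b W e
  unfold preΨ₄
  rw [h2, h4, h6, h8]
  simp only [add_comp, sub_comp, mul_comp, pow_comp, X_comp, C_comp, map_add, map_sub, map_mul,
    map_pow, map_ofNat, ofNat_comp]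
  have hrel : (4 : R[X]) * C W.b₈ = C W.b₂ * C W.b₆ - C W.b₄ ^ 2 := by
    have := congrArg (C : R → R[X]) W.b_relation
    simpa only [map_sub, map_mul, map_pow, map_ofNat] using this
  linear_combination (-(2 * C e * X + C e ^ 2)) * hrel

/-- `preΨ n = preNormEDS (Ψ₂Sq ^ 2) Ψ₃ preΨ₄ n`, `map_preNormEDS` for the ring homomorphism
`Polynomial.compRingHom (X + C e)`. -/
theorem preΨ_trVC (n : ℤ) : (trVC e • W).preΨ n = (W.preΨ n).comp (X + C e) := by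
  have h := map_preNormEDS (Polynomial.compRingHom (X + C e)) (W.Ψ₂Sq ^ 2) W.Ψ₃ W.preΨ₄ n
  simp only [map_pow, coe_compRingHom_apply] at h
  unfold preΨ
  rw [Ψ₂Sq_trVC, Ψ₃_trVC, preΨ₄_trVC]
  exact h.symm

theorem b₆_trVC : (trVC e • W).b₆ = W.Ψ₂Sq.eval e := by
  obtain ⟨h2, h4, h6, h8⟩ := trVC_b W e
  rw [h6]
  unfold Ψ₂Sq
  simp only [eval_add, eval_mul, eval_pow, eval_X, eval_C]
  ring

end Fermat.Agent.S15.Mod.Loc
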