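import Fermat.Agent.S15.Mod.Loc.TransA
import Fermat.Agent.S13.DivCurve
import Fermat.Agent.EL.VC

/-!
# S15-MOD-LOC: the abscissa of a point of odd prime order `p` is a root of `preΨ p`
(any Weierstrass curve over an algebraically closed field of characteristic `0`).
`S13.eval_preΨ_of_torsion` has it for `b₆ = 0`; translate by a root `e` of `Ψ₂Sq`.
-/

set_option autoImplicit false

namespace Fermat.Agent.S15.Mod.Loc

open WeierstrassCurve Fermat.Agent.S05 Fermat.Agent.S13 Fermat.Agent.EL Polynomial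

variable {K : Type*} [Field K] [DecidableEq K] (E : WeierstrassCurve K)

/-- `vcMap_some`: `x = 1² x' + e`. -/
theorem xc_vcMap (e : K) {P : (trVC e • E).toAffine.Point} (hP : P ≠ 0) :
    xc (vcMap E (trVC e) P) = xc P + e := by
  cases P with
  | zero => exact absurd rfl hP
  | some x y h =>
    rw [vcMap_some, xc_some, xc_some]
    simp [trVC]

/-- `Ψ₂Sq` has degree `3` (`natDegree_Ψ₂Sq`, `4 ≠ 0`), `IsAlgClosed.exists_root`. -/
theorem exists_root_Ψ₂Sq [CharZero K] [IsAlgClosed K] : ∃ e : K, E.Ψ₂Sq.eval e = 0 := by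
  have h4 : (4 : K) ≠ 0 := by norm_num
  have hd : E.Ψ₂Sq.degree ≠ 0 := by
    rw [Polynomial.degree_eq_natDegree (E.Ψ₂Sq_ne_zero h4), E.natDegree_Ψ₂Sq h4]
    norm_num
  exact IsAlgClosed.exists_root _ hd

/-- `e` a root of `Ψ₂Sq`, `Q' := (vcMap E (trVC e)).symm Q`: `Q' ≠ 0`, `p • Q' = 0`,
`(trVC e • E).b₆ = 0` (`b₆_trVC`), `S13.eval_preΨ_of_torsion`, `preΨ_trVC`, `eval_comp`,
`xc_vcMap`. -/
theorem eval_preΨ_of_torsion_gen [CharZero K] [IsAlgClosed K] {p : ℕ} (hp : p.Prime)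
    (hp2 : p ≠ 2) {Q : E.toAffine.Point} (hQ : Q ≠ 0) (hpQ : p • Q = 0) :
    (E.preΨ p).eval (xc Q) = 0 := by
  obtain ⟨e, he⟩ := exists_root_Ψ₂Sq E
  set Q' := (vcMap E (trVC e)).symm Q with hQ'
  have hQQ : vcMap E (trVC e) Q' = Q := (vcMap E (trVC e)).apply_symm_apply Q
  have hQ'0 : Q' ≠ 0 := by
    intro h
    apply hQ
    rw [← hQQ, h, map_zero]
  have hpQ' : p • Q' = 0 := by
    rw [hQ', ← map_nsmul, hpQ, map_zero]
  have hb6 : (trVC e • E).b₆ = 0 := by rw [b₆_trVC, he]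
  have h1 := eval_preΨ_of_torsion (trVC e • E).toAffine hb6 hp hp2 hQ'0 hpQ'
  have h2 : ((trVC e • E).preΨ (p : ℤ)).eval (xc Q') = 0 := h1
  rw [preΨ_trVC, eval_comp, eval_add, eval_X, eval_C, ← xc_vcMap E e hQ'0, hQQ] at h2
  exact h2

end Fermat.Agent.S15.Mod.Loc
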